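import Fermat.Agent.S24.FibreCount.Main

set_option autoImplicit false

/-!
# Place → embedding dictionary (generic form)

Setting of the S24 fibre count: `K` algebraically closed of characteristic zero, `F/K` a function
field, `x : F` transcendental with `[F : K(x)] = n`, and a full system of `n` pairwise distinct
embeddings `ι i : F →+* E` (agreeing on `K` and on `x`) into a field `E` with an order function
`u` trivial on `K` and positive at `ι i x`.

* `exists_emb_field`: every place `v` of `F` over `x = 0` is induced by one of the embeddings: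
  `u (ι i f) = κ * v.ord f` for a positive integer `κ` and all `f ≠ 0`.
* `ord_eq_minimalPeriod_field`: under the hypotheses of the fibre count (a group element `g`
  permuting the embeddings and preserving `u`, with the divisibility `hdiv`), the ramification
  index `v.ord x` is the size of the `⟨g⟩`-orbit of any embedding inducing `v`.
* ring forms `exists_emb`, `ord_eq_minimalPeriod` for a generating subalgebra `F₀ ⊆ F` mapping to
  a domain `R` with an order function (the shape of `S24.Generic.card_zeroPlaces_eq_card_orbits`).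
-/

namespace Fermat.Agent.S30.PlacePoint

open AlgebraicCurve IntermediateField
open Fermat.Agent.S24.FibreCount.ValPlace
open Fermat.Agent.S24

variable {K F : Type*} [Field K] [Field F] [Algebra K F]

/-- A place whose order function is proportional to a given order function is the place of that
order function. -/
theorem place_eq_placeOfOrd {u : F → ℤ} (hu : IsOrd u)
    (hK : ∀ c : K, c ≠ 0 → u (algebraMap K F c) = 0)
    (hnt : ∃ t : F, t ≠ 0 ∧ 0 < u t) (v : Place K F) (κ : ℤ) (hκ : 0 < κ)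
    (h : ∀ f : F, f ≠ 0 → u f = κ * v.ord f) : placeOfOrd hu hK hnt = v := by
  apply Place.ext
  rw [placeOfOrd_toValuationSubring]
  ext f
  rcases eq_or_ne f 0 with rfl | hf
  · simp
  · rw [hu.mem_valSubring_of_ne hf, ← FF.ord_nonneg_iff v hf, h f hf]
    constructor
    · intro h1
      exact nonneg_of_mul_nonneg_right h1 hκ
    · intro h1
      exact mul_nonneg hκ.le h1

/-- Every place has an element of order one. -/
theorem exists_ord_eq_one (v : Place K F) : ∃ π : F, π ≠ 0 ∧ v.ord π = 1 := by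
  obtain ⟨π, hπ⟩ := IsDiscreteValuationRing.exists_irreducible v.toValuationSubring
  refine ⟨π, ?_, v.ord_coe_irreducible hπ⟩
  simpa [ne_eq, ZeroMemClass.coe_eq_zero] using hπ.ne_zero

/-- **Place → embedding, field form.**  Every place over `x = 0` is induced by one of the
embeddings of a full system. -/
theorem exists_emb_field [CharZero K]
    (x : F) (hx : Transcendental K x) (hfin : FiniteDimensional K⟮x⟯ F)
    {E : Type*} [Field E] (u : E → ℤ) (hu : IsOrd u)
    {I : Type*} [Fintype I] (ι : I → F →+* E) (hι : Function.Injective ι)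
    (hcard : Fintype.card I = Module.finrank K⟮x⟯ F)
    (hK : ∀ i j (c : K), ι i (algebraMap K F c) = ι j (algebraMap K F c))
    (hxx : ∀ i j, ι i x = ι j x)
    (hconst : ∀ i (c : K), c ≠ 0 → u (ι i (algebraMap K F c)) = 0)
    (hxpos : ∀ i, 0 < u (ι i x))
    (v : Place K F) (hv : 0 < v.ord x) :
    ∃ i, ∃ κ : ℤ, 0 < κ ∧ (∃ π : F, π ≠ 0 ∧ u (ι i π) = κ) ∧
      ∀ f : F, f ≠ 0 → u (ι i f) = κ * v.ord f := by
  classical
  have hx0 : x ≠ 0 := by
    rintro rfl
    exact hx isAlgebraic_zero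
  have : Fact (Transcendental K x) := ⟨hx⟩
  have : Module.Finite K⟮x⟯ F := hfin
  have hIpos : 0 < Fintype.card I := by
    rw [hcard]
    exact Module.finrank_pos
  have : Nonempty I := Fintype.card_pos_iff.mp hIpos
  have huI : ∀ i, IsOrd (fun f => u (ι i f)) := fun i => hu.comp (ι i)
  have hnt : ∀ i, ∃ t : F, t ≠ 0 ∧ 0 < (fun f => u (ι i f)) t := fun i => ⟨x, hx0, hxpos i⟩
  let P : I → Place K F := fun i => placeOfOrd (huI i) (hconst i) (hnt i)
  have hram : ∀ i, ∃ κ : ℤ, 0 < κ ∧ (∃ π : F, π ≠ 0 ∧ u (ι i π) = κ) ∧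
      ∀ f : F, f ≠ 0 → u (ι i f) = κ * (P i).ord f := fun i =>
    exists_ramification_placeOfOrd (huI i) (hconst i) (hnt i)
  choose κ hκpos hκπ hκ using hram
  have hPx : ∀ i, 0 < (P i).ord x := by
    intro i
    have h := hκ i x hx0
    have h2 := hxpos i
    rw [h] at h2
    exact (mul_pos_iff_of_pos_left (hκpos i)).mp h2
  have hsurj : ∃ i, P i = v := by
    by_contra hne
    simp only [not_exists] at hne
    obtain ⟨a, ha0, hPa, hN⟩ := FibreCount.Avoid.exists_norm_pos K x v hv P hPx hne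
    let i₀ : I := Classical.arbitrary I
    obtain ⟨-, hprod⟩ :=
      FibreCount.NormProd.norm_eq_prod_of_embeddings (K := K) x ι hι hK hxx hcard.ge i₀
    have h1 := hprod a
    have hN0 : algebraMap K⟮x⟯ F (Algebra.norm K⟮x⟯ a) ≠ 0 := by
      have : Algebra.norm K⟮x⟯ a ≠ 0 := by
        rw [Ne, Algebra.norm_eq_zero_iff]
        exact ha0
      simpa using this
    have h2 := hκ i₀ _ hN0
    have h3 : u (∏ i, ι i a) = ∑ i, u (ι i a) :=
      hu.map_prod Finset.univ (fun i => ι i a) (fun i _ => (map_ne_zero (ι i)).mpr ha0)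
    have h4 : ∑ i, u (ι i a) = 0 :=
      Finset.sum_eq_zero (fun i _ => by rw [hκ i a ha0, hPa i, mul_zero])
    have h5 := hN (P i₀) (hPx i₀)
    have h6 : u (ι i₀ (algebraMap K⟮x⟯ F (Algebra.norm K⟮x⟯ a))) = 0 := by
      have : ι i₀ (algebraMap K⟮x⟯ F (Algebra.norm K⟮x⟯ a)) = ∏ i, ι i a := h1
      rw [this, h3, h4]
    rw [h6] at h2
    have : 0 < κ i₀ * (P i₀).ord (algebraMap K⟮x⟯ F (Algebra.norm K⟮x⟯ a)) :=
      mul_pos (hκpos i₀) h5
    omega
  obtain ⟨i, hi⟩ := hsurj
  refine ⟨i, κ i, hκpos i, hκπ i, fun f hf => ?_⟩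
  rw [hκ i f hf, hi]

/-- **Exact ramification, field form.**  Under the hypotheses of the S24 fibre count, if the
embedding `ι i` induces the place `v`, then `v.ord x` is the size of the `⟨g⟩`-orbit of `i`. -/
theorem ord_eq_minimalPeriod_field [IsAlgClosed K] [CharZero K]
    [Algebra.EssFiniteType K F] (htr : Algebra.trdeg K F = 1)
    (x : F) (hx : Transcendental K x) (hfin : FiniteDimensional K⟮x⟯ F)
    {E : Type*} [Field E] (u : E → ℤ) (hu : IsOrd u)
    {I : Type*} [Fintype I] (ι : I → F →+* E) (hι : Function.Injective ι)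
    (hcard : Fintype.card I = Module.finrank K⟮x⟯ F)
    (hK : ∀ i j (c : K), ι i (algebraMap K F c) = ι j (algebraMap K F c))
    (hxx : ∀ i j, ι i x = ι j x)
    (hconst : ∀ i (c : K), c ≠ 0 → u (ι i (algebraMap K F c)) = 0)
    (s : ℕ) (hs : 0 < s) (hxs : ∀ i, u (ι i x) = s)
    {Γ : Type*} [Group Γ] [MulAction Γ I] (g : Γ)
    (hg : ∀ i (f : F), u (ι (g • i) f) = u (ι i f))
    (hdiv : ∀ i (f : F), f ≠ 0 →
      (s : ℤ) ∣ u (ι i f) * (Function.minimalPeriod (g • ·) i : ℤ))
    (v : Place K F) (i : I) (κ : ℤ) (hκ : 0 < κ)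
    (hi : ∀ f : F, f ≠ 0 → u (ι i f) = κ * v.ord f) :
    v.ord x = (Function.minimalPeriod (g • ·) i : ℤ) := by
  classical
  have hx0 : x ≠ 0 := by
    rintro rfl
    exact hx isAlgebraic_zero
  have hs' : (0 : ℤ) < s := by exact_mod_cast hs
  have hxpos : ∀ i, 0 < u (ι i x) := fun i => by rw [hxs i]; exact hs'
  have hv : 0 < v.ord x := by
    have h := hi x hx0
    have h2 := hxpos i
    rw [h] at h2
    exact (mul_pos_iff_of_pos_left hκ).mp h2
  -- the fibre
  have hVfin : {v : Place K F | 0 < v.ord x}.Finite := by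
    have := FF.zeros_finite htr hx 0
    simpa using this
  have hVsum : ∑ᶠ v ∈ {v : Place K F | 0 < v.ord x}, v.ord x = (Module.finrank K⟮x⟯ F : ℤ) := by
    have := FF.sum_ord_zeros htr hx 0
    simpa using this
  let V : Set (Place K F) := {v : Place K F | 0 < v.ord x}
  have : Fintype ↥V := hVfin.fintype
  have hVsum' : ∑ v : ↥V, v.1.ord x = (Module.finrank K⟮x⟯ F : ℤ) := by
    rw [← hVsum, ← finsum_set_coe_eq_finsum_mem, finsum_eq_sum_of_fintype]
  -- representatives
  choose rep0 κ0 hκ0pos _ hrep0 using fun w : ↥V =>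
    exists_emb_field x hx hfin u hu ι hι hcard hK hxx hconst hxpos w.1 w.2
  let rep : ↥V → I := fun w => if w.1 = v then i else rep0 w
  have hrep : ∀ w : ↥V, ∃ κ' : ℤ, 0 < κ' ∧
      ∀ f : F, f ≠ 0 → u (ι (rep w) f) = κ' * w.1.ord f := by
    intro w
    by_cases hw : w.1 = v
    · simp only [rep, if_pos hw]
      exact ⟨κ, hκ, by rw [hw]; exact hi⟩
    · simp only [rep, if_neg hw]
      exact ⟨κ0 w, hκ0pos w, hrep0 w⟩
  have hrepv : rep ⟨v, hv⟩ = i := by simp only [rep, if_true]
  -- the places of the embeddings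
  have huI : ∀ i, IsOrd (fun f => u (ι i f)) := fun i => hu.comp (ι i)
  have hnt : ∀ i, ∃ t : F, t ≠ 0 ∧ 0 < (fun f => u (ι i f)) t := fun i => ⟨x, hx0, hxpos i⟩
  let P : I → Place K F := fun i => placeOfOrd (huI i) (hconst i) (hnt i)
  have hPg : ∀ i, P (g • i) = P i := by
    intro i
    apply Place.ext
    show (huI (g • i)).valSubring = (huI i).valSubring
    ext f
    rw [IsOrd.mem_valSubring, IsOrd.mem_valSubring, hg i f]
  have hPrep : ∀ w : ↥V, P (rep w) = w.1 := by
    intro w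
    obtain ⟨κ', hκ', h⟩ := hrep w
    exact place_eq_placeOfOrd (huI (rep w)) (hconst (rep w)) (hnt (rep w)) w.1 κ' hκ' h
  -- the orbit space
  have : Fintype (MulAction.orbitRel.Quotient (Subgroup.zpowers g) I) := Fintype.ofFinite _
  let mk : I → MulAction.orbitRel.Quotient (Subgroup.zpowers g) I := Quotient.mk''
  have hmk : ∀ i j, mk i = mk j → P i = P j := by
    intro i j h
    exact FibreCount.Field.eq_of_orbitRel_zpowers g P hPg (Quotient.exact h)
  have hσ : Function.Injective (fun w => mk (rep w)) := by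
    intro w w' h
    apply Subtype.ext
    rw [← hPrep w, ← hPrep w']
    exact hmk _ _ h
  let c : MulAction.orbitRel.Quotient (Subgroup.zpowers g) I → ℕ :=
    fun o => Fintype.card {i : I // mk i = o}
  have hcsum : ∑ o, c o = Fintype.card I := by
    rw [← Fintype.card_sigma]
    exact Fintype.card_congr (Equiv.sigmaFiberEquiv mk)
  have hcmk : ∀ i, c (mk i) = Function.minimalPeriod (g • ·) i := by
    intro i
    rw [MulAction.minimalPeriod_eq_card]
    apply Fintype.card_congr
    refine Equiv.subtypeEquivRight (fun j => ?_)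
    show mk j = mk i ↔ j ∈ MulAction.orbit (Subgroup.zpowers g) i
    rw [← MulAction.orbitRel_apply]
    exact Quotient.eq''
  have hcpos : ∀ o, 0 < c o := by
    intro o
    obtain ⟨i, rfl⟩ := Quotient.mk''_surjective o
    exact Fintype.card_pos_iff.mpr ⟨⟨i, rfl⟩⟩
  let e : ↥V → ℕ := fun w => (w.1.ord x).toNat
  have he : ∀ w : ↥V, (e w : ℤ) = w.1.ord x := fun w => Int.toNat_of_nonneg (le_of_lt w.2)
  have hle : ∀ w, e w ≤ c (mk (rep w)) := by
    intro w
    rw [hcmk]
    obtain ⟨κ', hκ', h⟩ := hrep w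
    obtain ⟨π, hπ0, hπ⟩ := exists_ord_eq_one w.1
    have hd := hdiv (rep w) π hπ0
    rw [h π hπ0, hπ, mul_one] at hd
    have hsκ : (s : ℤ) = κ' * w.1.ord x := by rw [← h x hx0, hxs]
    rw [hsκ] at hd
    have hd' : w.1.ord x ∣ (Function.minimalPeriod (g • ·) (rep w) : ℤ) :=
      (mul_dvd_mul_iff_left hκ'.ne').mp hd
    have hperpos : 0 < Function.minimalPeriod (g • ·) (rep w) := by
      rw [← hcmk]
      exact hcpos _
    have hle' := Int.le_of_dvd (by exact_mod_cast hperpos) hd'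
    have := he w
    omega
  have hsum : ∑ o, c o ≤ ∑ w, e w := by
    rw [hcsum, hcard]
    have : ((∑ w, e w : ℕ) : ℤ) = (Module.finrank K⟮x⟯ F : ℤ) := by
      rw [← hVsum']
      push_cast
      exact Finset.sum_congr rfl (fun w _ => he w)
    have := Nat.cast_injective (R := ℤ) this
    omega
  have h2 : ∑ w, c (mk (rep w)) ≤ ∑ o, c o := by
    have h2' : ∑ w, c (mk (rep w)) = ∑ o ∈ Finset.univ.image (fun w => mk (rep w)), c o := by
      rw [Finset.sum_image (fun a _ b _ h => hσ h)]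
    rw [h2']
    exact Finset.sum_le_sum_of_subset (Finset.subset_univ _)
  have h1 : ∑ w, e w ≤ ∑ w, c (mk (rep w)) := Finset.sum_le_sum fun w _ => hle w
  have heq : ∑ w, e w = ∑ w, c (mk (rep w)) := le_antisymm h1 (h2.trans hsum)
  have hall := (Finset.sum_eq_sum_iff_of_le (fun w _ => hle w)).mp heq
  have hfin1 := hall ⟨v, hv⟩ (Finset.mem_univ _)
  rw [hrepv, hcmk] at hfin1
  have := he ⟨v, hv⟩
  rw [← this]
  exact_mod_cast hfin1

/-! ### Ring forms -/

section Ring

open Fermat.Agent.S24.FibreCount.Main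

/-- Field-level data from subalgebra-level embeddings into a domain with an order function. -/
theorem exists_field_data (F₀ : Subalgebra K F)
    (hF₀ : ∀ f : F, ∃ a b : F₀, (b : F) ≠ 0 ∧ f * b = a)
    {R : Type*} [CommRing R] [IsDomain R] (ordR : R → ℤ)
    (hmul : ∀ a b : R, a ≠ 0 → b ≠ 0 → ordR (a * b) = ordR a + ordR b)
    (hadd : ∀ a b : R, a ≠ 0 → b ≠ 0 → a + b ≠ 0 → min (ordR a) (ordR b) ≤ ordR (a + b))
    {I : Type*} (ρ : I → F₀ →+* R) (hρ_inj : ∀ i, Function.Injective (ρ i)) :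
    ∃ (w : FractionRing R → ℤ) (ι : I → F →+* FractionRing R), IsOrd w ∧
      (∀ i (a : F₀), ι i (a : F) = algebraMap R (FractionRing R) (ρ i a)) ∧
      (∀ i (a : F₀), a ≠ 0 → w (ι i (a : F)) = ordR (ρ i a)) ∧
      (∀ i (a b : F₀), a ≠ 0 → b ≠ 0 →
        w (ι i ((a : F) / (b : F))) = ordR (ρ i a) - ordR (ρ i b)) := by
  classical
  have hinjR : Function.Injective (algebraMap R (FractionRing R)) :=
    IsFractionRing.injective R (FractionRing R)
  have hcoe0 : ∀ a : F₀, a ≠ 0 → (a : F) ≠ 0 := by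
    intro a ha h
    exact ha (Subtype.ext h)
  have hfracRing : IsFractionRing F₀ F := by
    apply IsFractionRing.of_field
    intro f
    obtain ⟨a, b, hb, hab⟩ := hF₀ f
    refine ⟨a, b, ?_⟩
    show f = (a : F) / (b : F)
    rw [eq_div_iff hb]
    exact hab
  have hρE : ∀ i, Function.Injective ((algebraMap R (FractionRing R)).comp (ρ i)) :=
    fun i => hinjR.comp (hρ_inj i)
  let ι : I → F →+* FractionRing R := fun i => IsFractionRing.lift (hρE i)
  have hι_apply : ∀ i (a : F₀), ι i (a : F) = algebraMap R (FractionRing R) (ρ i a) :=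
    fun i a => IsFractionRing.lift_algebraMap (hρE i) a
  have hu : IsOrd (ordFrac ordR) := isOrd_ordFrac hmul hadd
  have hu_apply : ∀ i (a : F₀), a ≠ 0 → ordFrac ordR (ι i (a : F)) = ordR (ρ i a) := by
    intro i a ha
    rw [hι_apply, ordFrac_algebraMap hmul ((map_ne_zero_iff _ (hρ_inj i)).mpr ha)]
  refine ⟨ordFrac ordR, ι, hu, hι_apply, hu_apply, ?_⟩
  intro i a b ha hb
  rw [map_div₀, hu.map_div ((map_ne_zero (ι i)).mpr (hcoe0 a ha))
    ((map_ne_zero (ι i)).mpr (hcoe0 b hb)), hu_apply i a ha, hu_apply i b hb]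

/-- **Place → embedding, ring form.**  In the setting of
`S24.Generic.card_zeroPlaces_eq_card_orbits` (no group action needed): every place over `x = 0`
is induced by one of the embeddings. -/
theorem exists_emb [CharZero K]
    (x : F) (hx : Transcendental K x) (hfin : FiniteDimensional K⟮x⟯ F)
    (F₀ : Subalgebra K F) (hF₀ : ∀ f : F, ∃ a b : F₀, (b : F) ≠ 0 ∧ f * b = a)
    (num den : F₀) (hden : den ≠ 0) (hxnd : x * den = num)
    {R : Type*} [CommRing R] [IsDomain R] (ordR : R → ℤ)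
    (hmul : ∀ a b : R, a ≠ 0 → b ≠ 0 → ordR (a * b) = ordR a + ordR b)
    (hadd : ∀ a b : R, a ≠ 0 → b ≠ 0 → a + b ≠ 0 → min (ordR a) (ordR b) ≤ ordR (a + b))
    {I : Type*} [Fintype I] (ρ : I → F₀ →+* R) (hρ_inj : ∀ i, Function.Injective (ρ i))
    (hρ_ne : Function.Injective ρ)
    (hcard : Fintype.card I = Module.finrank K⟮x⟯ F)
    (hK : ∀ i j (c : K), ρ i (algebraMap K F₀ c) = ρ j (algebraMap K F₀ c))
    (hnum : ∀ i j, ρ i num = ρ j num) (hden' : ∀ i j, ρ i den = ρ j den)
    (hconst : ∀ i (c : K), c ≠ 0 → ordR (ρ i (algebraMap K F₀ c)) = 0)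
    (hxpos : ∀ i, ordR (ρ i den) < ordR (ρ i num))
    (v : Place K F) (hv : 0 < v.ord x) :
    ∃ i, ∃ κ : ℤ, 0 < κ ∧ ∀ f : F₀, f ≠ 0 → ordR (ρ i f) = κ * v.ord (f : F) := by
  classical
  obtain ⟨w, ι, hw, hι_apply, hw_apply, hw_div⟩ :=
    exists_field_data F₀ hF₀ ordR hmul hadd ρ hρ_inj
  have hinjR : Function.Injective (algebraMap R (FractionRing R)) :=
    IsFractionRing.injective R (FractionRing R)
  have hcoe0 : ∀ a : F₀, a ≠ 0 → (a : F) ≠ 0 := by
    intro a ha h
    exact ha (Subtype.ext h)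
  have hx0 : x ≠ 0 := by
    rintro rfl
    exact hx isAlgebraic_zero
  have hnum0 : num ≠ 0 := by
    rintro rfl
    rw [ZeroMemClass.coe_zero] at hxnd
    exact mul_ne_zero hx0 (hcoe0 den hden) hxnd
  have hxfrac : x = (num : F) / (den : F) := by
    rw [eq_div_iff (hcoe0 den hden)]
    exact hxnd
  have hKcoe : ∀ c : K, algebraMap K F c = ((algebraMap K F₀ c : F₀) : F) := fun c => rfl
  have hι : Function.Injective ι := by
    intro i j hij
    apply hρ_ne
    ext a
    apply hinjR
    rw [← hι_apply, ← hι_apply, hij]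
  have hK' : ∀ i j (c : K), ι i (algebraMap K F c) = ι j (algebraMap K F c) := by
    intro i j c
    rw [hKcoe, hι_apply, hι_apply, hK i j c]
  have hxx : ∀ i j, ι i x = ι j x := by
    intro i j
    rw [hxfrac, map_div₀, map_div₀, hι_apply, hι_apply, hι_apply, hι_apply, hnum i j,
      hden' i j]
  have hconst' : ∀ i (c : K), c ≠ 0 → w (ι i (algebraMap K F c)) = 0 := by
    intro i c hc
    have hc' : algebraMap K F₀ c ≠ 0 := by
      intro h
      have h2 : algebraMap K F c = 0 := by rw [hKcoe, h]; rfl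
      exact hc (by simpa using h2)
    rw [hKcoe, hw_apply i _ hc']
    exact hconst i c hc
  have hxpos' : ∀ i, 0 < w (ι i x) := by
    intro i
    rw [hxfrac, hw_div i num den hnum0 hden]
    have := hxpos i
    omega
  obtain ⟨i, κ, hκ, -, hi⟩ :=
    exists_emb_field x hx hfin w hw ι hι hcard hK' hxx hconst' hxpos' v hv
  refine ⟨i, κ, hκ, fun f hf => ?_⟩
  rw [← hw_apply i f hf]
  exact hi _ (hcoe0 f hf)

/-- **Exact ramification, ring form.**  Under the hypotheses of
`S24.Generic.card_zeroPlaces_eq_card_orbits`, if the embedding `ρ i` induces the place `v`, then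
`v.ord x` is the size of the `⟨g⟩`-orbit of `i`. -/
theorem ord_eq_minimalPeriod [IsAlgClosed K] [CharZero K]
    [Algebra.EssFiniteType K F] (htr : Algebra.trdeg K F = 1)
    (x : F) (hx : Transcendental K x) (hfin : FiniteDimensional K⟮x⟯ F)
    (F₀ : Subalgebra K F) (hF₀ : ∀ f : F, ∃ a b : F₀, (b : F) ≠ 0 ∧ f * b = a)
    (num den : F₀) (hden : den ≠ 0) (hxnd : x * den = num)
    {R : Type*} [CommRing R] [IsDomain R] (ordR : R → ℤ)
    (hmul : ∀ a b : R, a ≠ 0 → b ≠ 0 → ordR (a * b) = ordR a + ordR b)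
    (hadd : ∀ a b : R, a ≠ 0 → b ≠ 0 → a + b ≠ 0 → min (ordR a) (ordR b) ≤ ordR (a + b))
    {I : Type*} [Fintype I] (ρ : I → F₀ →+* R) (hρ_inj : ∀ i, Function.Injective (ρ i))
    (hρ_ne : Function.Injective ρ)
    (hcard : Fintype.card I = Module.finrank K⟮x⟯ F)
    (hK : ∀ i j (c : K), ρ i (algebraMap K F₀ c) = ρ j (algebraMap K F₀ c))
    (hnum : ∀ i j, ρ i num = ρ j num) (hden' : ∀ i j, ρ i den = ρ j den)
    (hconst : ∀ i (c : K), c ≠ 0 → ordR (ρ i (algebraMap K F₀ c)) = 0)
    (s : ℕ) (hs : 0 < s) (hxs : ∀ i, ordR (ρ i num) - ordR (ρ i den) = s)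
    {Γ : Type*} [Group Γ] [MulAction Γ I] (g : Γ)
    (hg : ∀ i (f : F₀), ordR (ρ (g • i) f) = ordR (ρ i f))
    (hdiv : ∀ i (f : F₀), f ≠ 0 →
      (s : ℤ) ∣ ordR (ρ i f) * (Function.minimalPeriod (g • ·) i : ℤ))
    (v : Place K F) (i : I) (κ : ℤ) (hκ : 0 < κ)
    (hi : ∀ f : F₀, f ≠ 0 → ordR (ρ i f) = κ * v.ord (f : F)) :
    v.ord x = (Function.minimalPeriod (g • ·) i : ℤ) := by
  classical
  obtain ⟨w, ι, hw, hι_apply, hw_apply, hw_div⟩ :=
    exists_field_data F₀ hF₀ ordR hmul hadd ρ hρ_inj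
  have hinjR : Function.Injective (algebraMap R (FractionRing R)) :=
    IsFractionRing.injective R (FractionRing R)
  have hcoe0 : ∀ a : F₀, a ≠ 0 → (a : F) ≠ 0 := by
    intro a ha h
    exact ha (Subtype.ext h)
  have hfrac : ∀ f : F, f ≠ 0 → ∃ a b : F₀, a ≠ 0 ∧ b ≠ 0 ∧ f = (a : F) / (b : F) := by
    intro f hf
    obtain ⟨a, b, hb, hab⟩ := hF₀ f
    refine ⟨a, b, ?_, ?_, by rw [eq_div_iff hb]; exact hab⟩
    · rintro rfl
      rw [ZeroMemClass.coe_zero] at hab
      exact mul_ne_zero hf hb hab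
    · rintro rfl
      exact hb rfl
  have hx0 : x ≠ 0 := by
    rintro rfl
    exact hx isAlgebraic_zero
  have hnum0 : num ≠ 0 := by
    rintro rfl
    rw [ZeroMemClass.coe_zero] at hxnd
    exact mul_ne_zero hx0 (hcoe0 den hden) hxnd
  have hxfrac : x = (num : F) / (den : F) := by
    rw [eq_div_iff (hcoe0 den hden)]
    exact hxnd
  have hKcoe : ∀ c : K, algebraMap K F c = ((algebraMap K F₀ c : F₀) : F) := fun c => rfl
  refine ord_eq_minimalPeriod_field htr x hx hfin w hw ι ?_ hcard ?_ ?_ ?_ s hs ?_ g ?_ ?_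
    v i κ hκ ?_
  · intro i j hij
    apply hρ_ne
    ext a
    apply hinjR
    rw [← hι_apply, ← hι_apply, hij]
  · intro i j c
    rw [hKcoe, hι_apply, hι_apply, hK i j c]
  · intro i j
    rw [hxfrac, map_div₀, map_div₀, hι_apply, hι_apply, hι_apply, hι_apply, hnum i j,
      hden' i j]
  · intro i c hc
    have hc' : algebraMap K F₀ c ≠ 0 := by
      intro h
      have h2 : algebraMap K F c = 0 := by rw [hKcoe, h]; rfl
      exact hc (by simpa using h2)
    rw [hKcoe, hw_apply i _ hc']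
    exact hconst i c hc
  · intro i
    rw [hxfrac, hw_div i num den hnum0 hden]
    exact hxs i
  · intro i f
    rcases eq_or_ne f 0 with rfl | hf
    · simp
    obtain ⟨a, b, ha, hb, rfl⟩ := hfrac f hf
    rw [hw_div _ a b ha hb, hw_div _ a b ha hb, hg i a, hg i b]
  · intro i f hf
    obtain ⟨a, b, ha, hb, rfl⟩ := hfrac f hf
    rw [hw_div _ a b ha hb, sub_mul]
    exact dvd_sub (hdiv i a ha) (hdiv i b hb)
  · intro f hf
    obtain ⟨a, b, ha, hb, rfl⟩ := hfrac f hf
    rw [hw_div _ a b ha hb, hi a ha, hi b hb]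
    have h1 : v.ord ((a : F) / (b : F)) = v.ord (a : F) - v.ord (b : F) := by
      rw [div_eq_mul_inv, v.ord_mul (hcoe0 a ha) (inv_ne_zero (hcoe0 b hb)), v.ord_inv]
      ring
    rw [h1]
    ring

end Ring

end Fermat.Agent.S30.PlacePoint
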