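import Fermat.Agent.S30.PlacePoint.Generic
import Fermat.Agent.S24.Cusp.Fibre

set_option autoImplicit false
set_option linter.style.haveILetI false

/-!
# Place → cusp dictionary for the poles of `j` on `F_N`

Every place `v` of `F_N = ℚ̄(j(q^d) : d ∣ N)` which is a pole of `j` is the place of a cusp: there
is a coset `x ∈ SL(2,ℤ) ⧸ Γ₀(N)` (the cusp `γ⁻¹ ∞`, `x = γ Γ₀(N)`) such that, with
`w = |⟨T⟩ x|` the width of the cusp and `κ = N / w`,

* `ord_v j = -w`,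
* the order in `s = q^(1/N)` of the cusp expansion `ρ_x f` of every good `f ≠ 0` in `F_N` is
  `κ · ord_v f`.
-/

noncomputable section

open HahnSeries ModularCurve AlgebraicCurve IntermediateField CongruenceSubgroup
open scoped MatrixGroups

namespace Fermat.Agent.S30.PlacePoint

open Fermat.Agent.S24 Fermat.Agent.S24.Modular Fermat.Agent.S24.Puiseux

/-- Place → cusp, from a family of cusp embeddings (the data of
`S24.Puiseux.card_fibre_infty_of_embeddings`). -/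
theorem exists_cusp_of_embeddings (N : ℕ) [NeZero N]
    (F₀ : Subalgebra Kbar (FN N))
    (hF₀ : ∀ f : FN N, ∃ a b : F₀, (b : FN N) ≠ 0 ∧ f * b = a)
    (hj : jF N ∈ F₀)
    (ρ : SL(2, ℤ) ⧸ Gamma0 N → F₀ →+* LaurentSeries Kbar)
    (hρ_inj : ∀ i, Function.Injective (ρ i))
    (hρ_ne : Function.Injective ρ)
    (hconst : ∀ i (c : Kbar), ρ i (algebraMap Kbar F₀ c) = HahnSeries.C c)
    (hρj : ∀ i, ρ i ⟨jF N, hj⟩ = qExpand Kbar N (jqModC Kbar))
    (ξ : Kbarˣ) (hξ : IsPrimitiveRoot ξ N)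
    (hT : ∀ i (f : F₀), ρ (ModularGroup.T • i) f = scale ξ (ρ i f))
    (v : Place Kbar (FN N)) (hv : v.ord (jF N) < 0) :
    ∃ (x : SL(2, ℤ) ⧸ Gamma0 N) (κ : ℕ), 0 < κ ∧
      κ * Function.minimalPeriod (ModularGroup.T • ·) x = N ∧
      -v.ord (jF N) = (Function.minimalPeriod (ModularGroup.T • ·) x : ℤ) ∧
      ∀ f : F₀, f ≠ 0 → (ρ x f).order = κ * v.ord (f : FN N) := by
  classical
  have hx := transcendental_jF N
  have htr := trdeg_FN N
  have hfin : FiniteDimensional Kbar⟮jF N⟯ (FN N) :=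
    Fermat.Agent.S24.FF.finite_adjoin_simple htr hx
  have hx' : Transcendental Kbar (jF N)⁻¹ := Fermat.Agent.S24.FF.transcendental_inv hx
  have hfin' : FiniteDimensional Kbar⟮(jF N)⁻¹⟯ (FN N) :=
    Fermat.Agent.S24.FF.finiteDimensional_adjoin_inv _ hfin
  have hj0 : jF N ≠ 0 := fun h => hx (h ▸ isAlgebraic_zero)
  letI : Fintype (SL(2, ℤ) ⧸ Gamma0 N) := Fintype.ofFinite _
  have hN : 0 < N := Nat.pos_of_ne_zero (NeZero.ne N)
  have hN' : (0 : ℤ) < N := by exact_mod_cast hN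
  have hordj : (qExpand Kbar N (jqModC Kbar)).order = -(N : ℤ) := by
    rw [order_qExpand, order_jqModC]
    ring
  have hv' : 0 < v.ord (jF N)⁻¹ := by
    rw [v.ord_inv]
    omega
  have hden : (⟨jF N, hj⟩ : F₀) ≠ 0 := by
    intro h
    exact hj0 (congrArg Subtype.val h)
  have hxnd : (jF N)⁻¹ * ((⟨jF N, hj⟩ : F₀) : FN N) = ((1 : F₀) : FN N) := by
    show (jF N)⁻¹ * jF N = ((1 : F₀) : FN N)
    rw [inv_mul_cancel₀ hj0]
    rfl
  have hmul : ∀ a b : LaurentSeries Kbar, a ≠ 0 → b ≠ 0 →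
      (a * b).order = a.order + b.order := fun a b ha hb => HahnSeries.order_mul ha hb
  have hadd : ∀ a b : LaurentSeries Kbar, a ≠ 0 → b ≠ 0 → a + b ≠ 0 →
      min a.order b.order ≤ (a + b).order :=
    fun a b _ _ hab => HahnSeries.min_order_le_order_add hab
  have hcard : Fintype.card (SL(2, ℤ) ⧸ Gamma0 N)
      = Module.finrank Kbar⟮(jF N)⁻¹⟯ (FN N) := by
    rw [Fermat.Agent.S24.FF.finrank_adjoin_inv, finrank_jF N,
      ← Fermat.Agent.S24.Comb.card_quotient_Gamma0 N, Nat.card_eq_fintype_card]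
  have hK : ∀ i j (c : Kbar), ρ i (algebraMap Kbar F₀ c) = ρ j (algebraMap Kbar F₀ c) := by
    intro i j c
    rw [hconst, hconst]
  have hnum : ∀ i j, ρ i (1 : F₀) = ρ j 1 := by
    intro i j
    rw [map_one, map_one]
  have hden' : ∀ i j, ρ i (⟨jF N, hj⟩ : F₀) = ρ j ⟨jF N, hj⟩ := by
    intro i j
    rw [hρj, hρj]
  have hconst' : ∀ i (c : Kbar), c ≠ 0 → (ρ i (algebraMap Kbar F₀ c)).order = 0 := by
    intro i c _
    rw [hconst]
    exact HahnSeries.order_C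
  have hxs : ∀ i, (ρ i (1 : F₀)).order - (ρ i (⟨jF N, hj⟩ : F₀)).order = (N : ℤ) := by
    intro i
    rw [map_one, hρj, hordj, HahnSeries.order_one]
    ring
  have hg : ∀ i (f : F₀), (ρ (ModularGroup.T • i) f).order = (ρ i f).order := by
    intro i f
    rw [hT, order_scale]
  have hdiv : ∀ i (f : F₀), f ≠ 0 → (N : ℤ) ∣ (ρ i f).order *
      (Function.minimalPeriod (fun i : SL(2, ℤ) ⧸ Gamma0 N => ModularGroup.T • i) i : ℤ) := by
    intro i f _
    set m := Function.minimalPeriod (fun i : SL(2, ℤ) ⧸ Gamma0 N => ModularGroup.T • i) i with hm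
    have hper : (fun i : SL(2, ℤ) ⧸ Gamma0 N => ModularGroup.T • i)^[m] i = i :=
      Function.isPeriodicPt_minimalPeriod _ i
    have hinv : scale (ξ ^ m) (ρ i f) = ρ i f := by
      rw [← rho_iterate_T ρ ξ hT m i f, hper]
    have h := dvd_mul_order_of_scale_pow_eq hξ m hinv
    rw [mul_comm] at h
    exact h
  have hxpos : ∀ i, (ρ i (⟨jF N, hj⟩ : F₀)).order < (ρ i (1 : F₀)).order := by
    intro i
    have := hxs i
    omega
  obtain ⟨i, κ, hκ, hi⟩ := exists_emb (jF N)⁻¹ hx' hfin'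
    F₀ hF₀ (1 : F₀) ⟨jF N, hj⟩ hden hxnd (HahnSeries.order (Γ := ℤ) (R := Kbar)) hmul hadd
    ρ hρ_inj hρ_ne hcard hK hnum hden' hconst' hxpos v hv'
  have hvm := ord_eq_minimalPeriod htr (jF N)⁻¹ hx' hfin'
    F₀ hF₀ (1 : F₀) ⟨jF N, hj⟩ hden hxnd (HahnSeries.order (Γ := ℤ) (R := Kbar)) hmul hadd
    ρ hρ_inj hρ_ne hcard hK hnum hden' hconst' N hN hxs ModularGroup.T hg hdiv v i κ hκ hi
  rw [v.ord_inv] at hvm
  have h1 := hi ⟨jF N, hj⟩ hden
  rw [hρj, hordj] at h1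
  have h2 : κ * (Function.minimalPeriod (fun i : SL(2, ℤ) ⧸ Gamma0 N => ModularGroup.T • i) i : ℤ)
      = N := by
    have h3 : v.ord (jF N) = -(Function.minimalPeriod
        (fun i : SL(2, ℤ) ⧸ Gamma0 N => ModularGroup.T • i) i : ℤ) := by omega
    have h4 : v.ord ((⟨jF N, hj⟩ : F₀) : FN N) = v.ord (jF N) := rfl
    rw [h4, h3] at h1
    linarith
  obtain ⟨k, rfl⟩ := Int.eq_ofNat_of_zero_le hκ.le
  refine ⟨i, k, by exact_mod_cast hκ, by exact_mod_cast h2, hvm, hi⟩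

/-- **Place → cusp dictionary.**  For any `q^(1/N)`-expansion system `Q` over `ℚ̄`: every pole
`v` of `j` on `F_N` is the place of a coset `x` (cusp), `ord_v j = -w` with `w = |⟨T⟩ x|` the
width, and the order in `q^(1/N)` of the cusp expansion `Q.rho x f` of every nonzero good
`f ∈ F_N` is `(N / w) · ord_v f`. -/
theorem exists_cusp_of_place {N : ℕ} [NeZero N] (Q : Fermat.Agent.S24.Cusp.QExpSys Kbar N)
    (v : Place Kbar (FN N)) (hv : v.ord (jF N) < 0) :
    ∃ (x : SL(2, ℤ) ⧸ Gamma0 N) (κ : ℕ), 0 < κ ∧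
      κ * Function.minimalPeriod (ModularGroup.T • ·) x = N ∧
      -v.ord (jF N) = (Function.minimalPeriod (ModularGroup.T • ·) x : ℤ) ∧
      ∀ f : Q.F₀, f ≠ 0 → (Q.rho x f).order = κ * v.ord (f : FN N) := by
  refine exists_cusp_of_embeddings N Q.F₀ Q.frac Q.jF_mem Q.rho ?_ Q.rho_injective ?_ ?_
    Q.ζ⁻¹ Q.hζ.inv ?_ v hv
  · intro x
    exact (Q.cuspQ_apply_injective x).comp Q.incl_injective
  · intro x c
    rw [Fermat.Agent.S24.Cusp.QExpSys.rho_apply, AlgHom.commutes, AlgHom.commutes,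
      algebraMap_laurentSeries_eq_single, HahnSeries.C_apply]
  · intro x
    rw [Fermat.Agent.S24.Cusp.QExpSys.rho_apply, Q.incl_jF, Q.cuspQ_jG_one,
      Fermat.Agent.S24.Cusp.QExpSys.jgen_one, coeffEmb_jq]
  · intro x f
    rw [Fermat.Agent.S24.Cusp.QExpSys.rho_apply, Fermat.Agent.S24.Cusp.QExpSys.rho_apply,
      Q.cuspQ_T_smul]

end Fermat.Agent.S30.PlacePoint
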