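import Fermat.Agent.S30.PlacePoint.Generic
import Fermat.Agent.S24.Modular.M4
import Fermat.Agent.S24.Modular.M5

set_option autoImplicit false
set_option linter.dupNamespace false
set_option linter.style.haveILetI false

/-!
# Place → point dictionary for the finite places of `F_N`

Every place `v` of `F_N = ℚ̄(j(q^d) : d ∣ N)` which is not a pole of `j` is the place of a point
`τ ∈ ℍ`: there is `κ ∈ {1, 2, 3}` with `ord_τ (θ f) = κ · ord_v f` for all `f` in the generating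
algebra `A₀(N) = ℚ̄[j(q^d) : d ∣ N]` (`θ` = analytic avatar), and `κ` is the order of the stabiliser
of `τ` in `Γ₀(N)/±1`: there is `σ ∈ Γ₀(N)` fixing `τ` such that every nonzero holomorphic function
invariant under `σ` has order divisible by `κ` at `τ`.  Moreover `κ · ord_v (j - j(τ))` is the order
of vanishing of `j - j(τ)` at `τ` (`1`, `2` at the orbit of `i`, `3` at the orbit of `ρ`).
-/

noncomputable section

namespace Fermat.Agent.S30.PlacePoint

open ModularCurve AlgebraicCurve IntermediateField CongruenceSubgroup UpperHalfPlane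
open Fermat.Agent.S24 Fermat.Agent.S24.Modular
open Fermat.Agent.S24.HolH Fermat.Agent.S24.JHol Fermat.Agent.S24.JFun
open scoped MatrixGroups

/-- Generic place → coset dictionary over a finite point `j = a` (the data of
`S24.Modular.card_fibre_of_thetaData`): every place over `a` is induced by a coset embedding
`ρ i`, with ramification index the size of the `⟨g⟩`-orbit of `i`. -/
theorem exists_coset_of_thetaData {N : ℕ} [NeZero N] (D : ThetaData N) (a : Kbar) (τ0 : ℍ)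
    (g : SL(2, ℤ)) (s : ℕ) (hs : 0 < s)
    (hord : ordZ τ0 (jHol - algebraMap ℂ HolH (D.emb a)) = s)
    (hfix : g • τ0 = τ0)
    (hrot : ∀ f : HolH, f ≠ 0 → compSL g f = f → (s : ℤ) ∣ ordZ τ0 f)
    (hper : ∀ i : SL(2, ℤ) ⧸ Gamma0 N, g • i ≠ i → s ∣ Function.minimalPeriod (g • ·) i)
    (v : Place Kbar (FN N)) (hv : 0 < v.ord (jF N - algebraMap Kbar (FN N) a)) :
    ∃ (i : SL(2, ℤ) ⧸ Gamma0 N) (κ : ℤ), 0 < κ ∧
      (∀ f : D.F₀, f ≠ 0 → ordZ τ0 (D.ρ i f) = κ * v.ord (f : FN N)) ∧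
      v.ord (jF N - algebraMap Kbar (FN N) a) = (Function.minimalPeriod (g • ·) i : ℤ) := by
  classical
  letI : Fintype (SL(2, ℤ) ⧸ Gamma0 N) := Fintype.ofFinite _
  have htr := trdeg_FN N
  have hx0 := transcendental_jF N
  have hx := Fermat.Agent.S24.AdjoinShift.transcendental_sub_algebraMap hx0 a
  have hfin0 : FiniteDimensional Kbar⟮jF N⟯ (FN N) :=
    Fermat.Agent.S24.FF.finite_adjoin_simple htr hx0
  have hfin := Fermat.Agent.S24.AdjoinShift.finiteDimensional_sub_algebraMap (jF N) a hfin0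
  have hginv : g⁻¹ • τ0 = τ0 := by
    conv_lhs => rw [← hfix]
    rw [inv_smul_smul]
  have hxnd : (jF N - algebraMap Kbar (FN N) a) * ((1 : D.F₀) : FN N) = (D.num a : FN N) := by
    simp [ThetaData.num]
  have hmul : ∀ a b : HolH, a ≠ 0 → b ≠ 0 → ordZ τ0 (a * b) = ordZ τ0 a + ordZ τ0 b :=
    fun a b ha hb => ordZ_mul τ0 ha hb
  have hadd : ∀ a b : HolH, a ≠ 0 → b ≠ 0 → a + b ≠ 0 →
      min (ordZ τ0 a) (ordZ τ0 b) ≤ ordZ τ0 (a + b) :=
    fun a b ha hb hab => min_le_ordZ_add τ0 ha hb hab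
  have hcard : Fintype.card (SL(2, ℤ) ⧸ Gamma0 N)
      = Module.finrank Kbar⟮jF N - algebraMap Kbar (FN N) a⟯ (FN N) := by
    rw [Fermat.Agent.S24.AdjoinShift.finrank_sub_algebraMap, finrank_jF, ← Nat.card_eq_fintype_card,
      Fermat.Agent.S24.Comb.card_quotient_Gamma0]
  have hK : ∀ i j (c : Kbar), D.ρ i (algebraMap Kbar D.F₀ c) = D.ρ j (algebraMap Kbar D.F₀ c) := by
    intro i j c
    rw [D.ρ_const, D.ρ_const]
  have hnum : ∀ i j, D.ρ i (D.num a) = D.ρ j (D.num a) := by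
    intro i j
    rw [D.ρ_num, D.ρ_num]
  have hden' : ∀ i j, D.ρ i (1 : D.F₀) = D.ρ j 1 := by
    intro i j
    rw [map_one, map_one]
  have hconst : ∀ i (c : Kbar), c ≠ 0 → ordZ τ0 (D.ρ i (algebraMap Kbar D.F₀ c)) = 0 := by
    intro i c hc
    rw [D.ρ_const]
    exact ordZ_algebraMap ((map_ne_zero_iff _ D.emb.injective).mpr hc)
  have hxs : ∀ i, ordZ τ0 (D.ρ i (D.num a)) - ordZ τ0 (D.ρ i (1 : D.F₀)) = s := by
    intro i
    rw [D.ρ_num, map_one, ordZ_one, hord, sub_zero]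
  have hg : ∀ i (f : D.F₀), ordZ τ0 (D.ρ (g • i) f) = ordZ τ0 (D.ρ i f) := by
    intro i f
    rw [D.ρ_smul, ordZ_compSL, hginv]
  have hdiv : ∀ i (f : D.F₀), f ≠ 0 →
      (s : ℤ) ∣ ordZ τ0 (D.ρ i f) * (Function.minimalPeriod (g • ·) i : ℤ) := by
    intro i f hf
    have hf0 : D.ρ i f ≠ 0 := (map_ne_zero_iff _ (D.ρ_injective i)).mpr hf
    by_cases hi : g • i = i
    · have h1 : compSL g⁻¹ (D.ρ i f) = D.ρ i f := by rw [← D.ρ_smul, hi]
      have h2 : compSL g (D.ρ i f) = D.ρ i f := compSL_eq_self_of_inv h1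
      exact Dvd.dvd.mul_right (hrot _ hf0 h2) _
    · have h1 : (s : ℤ) ∣ (Function.minimalPeriod (g • ·) i : ℤ) := by
        exact_mod_cast hper i hi
      exact Dvd.dvd.mul_left h1 _
  have hxpos : ∀ i, ordZ τ0 (D.ρ i (1 : D.F₀)) < ordZ τ0 (D.ρ i (D.num a)) := by
    intro i
    have := hxs i
    have hs' : (0 : ℤ) < s := by exact_mod_cast hs
    omega
  obtain ⟨i, κ, hκ, hi⟩ := exists_emb (jF N - algebraMap Kbar (FN N) a) hx hfin
    D.F₀ D.hF₀ (D.num a) 1 one_ne_zero hxnd (ordZ τ0) hmul hadd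
    D.ρ D.ρ_injective D.ρ_ne hcard hK hnum hden' hconst hxpos v hv
  refine ⟨i, κ, hκ, hi, ?_⟩
  exact ord_eq_minimalPeriod htr (jF N - algebraMap Kbar (FN N) a) hx hfin
    D.F₀ D.hF₀ (D.num a) 1 one_ne_zero hxnd (ordZ τ0) hmul hadd
    D.ρ D.ρ_injective D.ρ_ne hcard hK hnum hden' hconst s hs hxs g hg hdiv v i κ hκ hi

/-- Place → point over a finite point `j = a` with local data `(τ0, g, s)` where every coset has
`⟨g⟩`-period `1` or `s`. -/
theorem exists_point_of_thetaData {N : ℕ} [NeZero N] (D : ThetaData N) (a : Kbar) (τ0 : ℍ)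
    (g : SL(2, ℤ)) (s : ℕ) (hs : 0 < s)
    (hord : ordZ τ0 (jHol - algebraMap ℂ HolH (D.emb a)) = s)
    (hfix : g • τ0 = τ0)
    (hrot : ∀ f : HolH, f ≠ 0 → compSL g f = f → (s : ℤ) ∣ ordZ τ0 f)
    (hm : ∀ i : SL(2, ℤ) ⧸ Gamma0 N, Function.minimalPeriod (g • ·) i = 1 ∨
      Function.minimalPeriod (g • ·) i = s)
    (v : Place Kbar (FN N)) (hv : 0 < v.ord (jF N - algebraMap Kbar (FN N) a)) :
    ∃ (τ : ℍ) (κ : ℕ) (σ : SL(2, ℤ)), jFun τ = D.emb a ∧ 0 < κ ∧ σ ∈ Gamma0 N ∧ σ • τ = τ ∧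
      (∀ f : D.F₀, f ≠ 0 → ordZ τ (D.θ f) = κ * v.ord (f : FN N)) ∧
      (∀ H : HolH, H ≠ 0 → compSL σ H = H → (κ : ℤ) ∣ ordZ τ H) ∧
      (κ : ℤ) * v.ord (jF N - algebraMap Kbar (FN N) a) = s := by
  have hper : ∀ i : SL(2, ℤ) ⧸ Gamma0 N, g • i ≠ i → s ∣ Function.minimalPeriod (g • ·) i := by
    intro i hi
    rcases hm i with h1 | h1
    · exact absurd (Function.minimalPeriod_eq_one_iff_isFixedPt.mp h1) hi
    · rw [h1]
  obtain ⟨i, κ, hκ, hi, hvm⟩ :=
    exists_coset_of_thetaData D a τ0 g s hs hord hfix hrot hper v hv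
  set γ : SL(2, ℤ) := Quotient.out i with hγ
  have hs' : (0 : ℤ) < s := by exact_mod_cast hs
  -- the point
  have hτ : ∀ f : D.F₀, ordZ τ0 (D.ρ i f) = ordZ (γ⁻¹ • τ0) (D.θ f) := by
    intro f
    rw [D.ρ_apply, ordZ_compSL]
  have hjτ0 : jFun τ0 = D.emb a := by
    have h0 : (0 : ℤ) < ordZ τ0 (jHol - algebraMap ℂ HolH (D.emb a)) := by rw [hord]; exact hs'
    have h1 := (ordZ_pos_iff (jHol_sub_ne_zero (D.emb a))).mp h0
    rw [jHol_sub_apply] at h1
    exact sub_eq_zero.mp h1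
  have hjτ : jFun (γ⁻¹ • τ0) = D.emb a := by rw [jFun_smul, hjτ0]
  -- the product formula `κ * period = s`
  have hnum0 : D.num a ≠ 0 := by
    intro h
    have h1 := congrArg (fun f : D.F₀ => (f : FN N)) h
    simp only [ThetaData.num, ZeroMemClass.coe_zero] at h1
    rw [h1, (v.ord_zero)] at hv
    exact lt_irrefl _ hv
  have hprod : κ * v.ord (jF N - algebraMap Kbar (FN N) a) = s := by
    have h1 := hi (D.num a) hnum0
    rw [D.ρ_num, hord] at h1
    exact h1.symm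
  rcases hm i with h1 | h1
  · -- fixed coset: `κ = s`, the stabiliser is generated by `γ⁻¹ g γ`
    rw [hvm, h1] at hprod
    have hκs : κ = s := by simpa using hprod
    have hgi : g • i = i := Function.minimalPeriod_eq_one_iff_isFixedPt.mp h1
    have hmem : γ⁻¹ * g * γ ∈ Gamma0 N := by
      have h2 : (QuotientGroup.mk γ : SL(2, ℤ) ⧸ Gamma0 N) = i := QuotientGroup.out_eq' i
      have h3 : (QuotientGroup.mk (g * γ) : SL(2, ℤ) ⧸ Gamma0 N) = QuotientGroup.mk γ := by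
        rw [← smul_eq_mul, ← MulAction.Quotient.smul_mk, h2, hgi]
      have h4 : (g * γ)⁻¹ * γ ∈ Gamma0 N := QuotientGroup.eq.mp h3
      have h5 : γ⁻¹ * g * γ = ((g * γ)⁻¹ * γ)⁻¹ := by group
      rw [h5]
      exact inv_mem h4
    refine ⟨γ⁻¹ • τ0, s, γ⁻¹ * g * γ, hjτ, hs, hmem, ?_, ?_, ?_, ?_⟩
    · rw [mul_smul, mul_smul, smul_inv_smul, hfix]
    · intro f hf
      rw [← hτ f, hi f hf, hκs]
    · intro H hH hinv
      have h2 : compSL g (compSL γ⁻¹ H) = compSL γ⁻¹ H := by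
        have h3 : compSL (γ⁻¹ * g * γ) H = compSL γ (compSL g (compSL γ⁻¹ H)) := by
          rw [compSL_mul, compSL_mul]
        rw [h3] at hinv
        have h4 := congrArg (compSL γ⁻¹) hinv
        rw [compSL_inv_compSL] at h4
        exact h4
      have h5 : compSL γ⁻¹ H ≠ 0 := (map_ne_zero_iff _ (compSL_injective γ⁻¹)).mpr hH
      have h6 := hrot _ h5 h2
      rw [ordZ_compSL] at h6
      exact h6
    · rw [hvm, h1]
      simp
  · -- free orbit: `κ = 1`
    rw [hvm, h1] at hprod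
    have hκ1 : κ = 1 := by
      have h2 : κ * (s : ℤ) = 1 * s := by rw [one_mul]; exact hprod
      exact mul_right_cancel₀ hs'.ne' h2
    refine ⟨γ⁻¹ • τ0, 1, 1, hjτ, one_pos, one_mem _, one_smul _ _, ?_, ?_, ?_⟩
    · intro f hf
      rw [← hτ f, hi f hf, hκ1]
      simp
    · intro H _ _
      exact one_dvd _
    · rw [hvm, h1]
      simp

/-- Periods of an element whose `p`-th power acts trivially (`p` prime) are `1` or `p`. -/
theorem minimalPeriod_eq_one_or_of_pow_smul {N : ℕ} (g : SL(2, ℤ)) (p : ℕ) (hp : p.Prime)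
    (hg : ∀ i : SL(2, ℤ) ⧸ Gamma0 N, g ^ p • i = i) (i : SL(2, ℤ) ⧸ Gamma0 N) :
    Function.minimalPeriod (g • ·) i = 1 ∨ Function.minimalPeriod (g • ·) i = p := by
  have hper : Function.IsPeriodicPt (g • ·) p i := by
    have h := hg i
    show (g • ·)^[p] i = i
    rw [smul_iterate]
    exact h
  exact (Nat.dvd_prime hp).mp hper.minimalPeriod_dvd

/-- **Place → point dictionary (finite places).**  Every place `v` of `F_N` at which `j` is
regular is the place of a point `τ ∈ ℍ`: with `a = j(τ) ∈ ℚ̄`, `κ` the order of the stabiliser of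
`τ` in `Γ₀(N)/±1` (generated by `σ`), the order of `θ f` at `τ` is `κ · ord_v f` for all
`f ∈ A₀(N)`; and `κ · ord_v (j - a) = ord_τ (j - a)`. -/
theorem exists_point_of_place (N : ℕ) [NeZero N] (v : Place Kbar (FN N))
    (hv : 0 ≤ v.ord (jF N)) :
    ∃ (a : Kbar) (τ : ℍ) (κ : ℕ) (σ : SL(2, ℤ)),
      0 < v.ord (jF N - algebraMap Kbar (FN N) a) ∧ jFun τ = Theta.iotaBar a ∧
      0 < κ ∧ σ ∈ Gamma0 N ∧ σ • τ = τ ∧
      (∀ f : Theta.A0 N, f ≠ 0 →
        ordZ τ (Theta.theta Theta.iotaBar N f) = κ * v.ord (f : FN N)) ∧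
      (∀ H : HolH, H ≠ 0 → compSL σ H = H → (κ : ℤ) ∣ ordZ τ H) ∧
      (κ : ℤ) * v.ord (jF N - algebraMap Kbar (FN N) a)
        = ordZ τ (jHol - algebraMap ℂ HolH (Theta.iotaBar a)) := by
  have htr := trdeg_FN N
  have hx0 := transcendental_jF N
  have hj0 : jF N ≠ 0 := fun h => hx0 (h ▸ isAlgebraic_zero)
  have hmem : jF N ∈ v.toValuationSubring := (FF.ord_nonneg_iff v hj0).mp hv
  obtain ⟨a, ha⟩ := FF.exists_residue htr v hmem
  have hva : 0 < v.ord (jF N - algebraMap Kbar (FN N) a) := by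
    rcases ha with ha | ha
    · exfalso
      apply hx0
      rw [ha]
      exact isAlgebraic_algebraMap a
    · exact ha
  have key : ∀ (τ0 : ℍ) (g : SL(2, ℤ)) (s : ℕ), 0 < s →
      ordZ τ0 (jHol - algebraMap ℂ HolH ((thetaData N).emb a)) = s → g • τ0 = τ0 →
      (∀ f : HolH, f ≠ 0 → compSL g f = f → (s : ℤ) ∣ ordZ τ0 f) →
      (∀ i : SL(2, ℤ) ⧸ Gamma0 N, Function.minimalPeriod (g • ·) i = 1 ∨
        Function.minimalPeriod (g • ·) i = s) →
      ∃ (a : Kbar) (τ : ℍ) (κ : ℕ) (σ : SL(2, ℤ)),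
      0 < v.ord (jF N - algebraMap Kbar (FN N) a) ∧ jFun τ = Theta.iotaBar a ∧
      0 < κ ∧ σ ∈ Gamma0 N ∧ σ • τ = τ ∧
      (∀ f : Theta.A0 N, f ≠ 0 →
        ordZ τ (Theta.theta Theta.iotaBar N f) = κ * v.ord (f : FN N)) ∧
      (∀ H : HolH, H ≠ 0 → compSL σ H = H → (κ : ℤ) ∣ ordZ τ H) ∧
      (κ : ℤ) * v.ord (jF N - algebraMap Kbar (FN N) a)
        = ordZ τ (jHol - algebraMap ℂ HolH (Theta.iotaBar a)) := by
    intro τ0 g s hs hord hfix hrot hm
    obtain ⟨τ, κ, σ, hjτ, hκ, hσ, hστ, hf, hH, hprod⟩ :=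
      exists_point_of_thetaData (thetaData N) a τ0 g s hs hord hfix hrot hm v hva
    refine ⟨a, τ, κ, σ, hva, hjτ, hκ, hσ, hστ, hf, hH, ?_⟩
    have hnum0 : (thetaData N).num a ≠ 0 := by
      intro h
      have h1 := congrArg (fun f : (thetaData N).F₀ => (f : FN N)) h
      simp only [ThetaData.num, ZeroMemClass.coe_zero] at h1
      rw [h1, (v.ord_zero)] at hva
      exact lt_irrefl _ hva
    have h2 := hf ((thetaData N).num a) hnum0
    have h3 : (thetaData N).θ ((thetaData N).num a)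
        = jHol - algebraMap ℂ HolH (Theta.iotaBar a) := (thetaData N).θ_num a
    rw [← h3]
    exact h2.symm
  by_cases h0 : a = 0
  · subst h0
    have hord : ordZ rho (jHol - algebraMap ℂ HolH ((thetaData N).emb 0)) = ((3 : ℕ) : ℤ) := by
      rw [map_zero]
      exact ordZ_jHol_sub_zero_rho
    exact key rho (ModularGroup.S * ModularGroup.T) 3 (by norm_num) hord ST_smul_rho
      (fun f hf hinv => three_dvd_ordZ_of_ST_fixed ST_smul_rho hf hinv)
      (minimalPeriod_eq_one_or_of_pow_smul _ 3 Nat.prime_three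
        (fun i => by rw [ST_pow_three]; exact neg_one_smul_coset N i))
  by_cases h1 : a = 1728
  · subst h1
    have hord : ordZ UpperHalfPlane.I (jHol - algebraMap ℂ HolH ((thetaData N).emb 1728))
        = ((2 : ℕ) : ℤ) := by
      rw [map_ofNat]
      exact ordZ_jHol_sub_I
    exact key UpperHalfPlane.I ModularGroup.S 2 (by norm_num) hord S_smul_I
      (fun f hf hinv => two_dvd_ordZ_of_S_fixed S_smul_I hf hinv)
      (minimalPeriod_eq_one_or_of_pow_smul _ 2 Nat.prime_two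
        (fun i => by rw [S_pow_two_eq_neg_one]; exact neg_one_smul_coset N i))
  · have hc0 : (thetaData N).emb a ≠ 0 := (map_ne_zero (thetaData N).emb).mpr h0
    have hc1 : (thetaData N).emb a ≠ 1728 := by
      intro h
      apply h1
      apply (thetaData N).emb.injective
      rw [h, map_ofNat]
    obtain ⟨τ0, -, hτ0⟩ := exists_ordZ_jHol_sub_eq_one hc0 hc1
    exact key τ0 (1 : SL(2, ℤ)) 1 one_pos (by rw [hτ0]; rfl) (one_smul _ _)
      (fun f _ _ => one_dvd _)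
      (fun i => Or.inl (Function.minimalPeriod_eq_one_iff_isFixedPt.mpr (one_smul _ i)))

end Fermat.Agent.S30.PlacePoint
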